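import Fermat.Statements.S16
import Fermat.Prelude.Thm_ModularForm_sturm_bound_Gamma0

/-!
# S16 for the primes `p = 2` and `p = 3` (helper607)

For `p ∈ {2, 3}` there are no nonzero cusp forms of weight `2` on `Γ₀(p)` (Sturm bound), so the
integral lattice, the Hecke lattice algebra and its quotient by the Eisenstein ideal are trivial,
and `eisensteinNumerator p = 1`.

More generally `card_quotient_eq_one_of_forall_eq_zero` proves the frozen S16 statement for any
prime `p` with `S₂(Γ₀(p)) = 0` and `eisensteinNumerator p = 1`.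
-/

set_option autoImplicit false

open ModularCurve CuspForm UpperHalfPlane
open scoped MatrixGroups

namespace Fermat.Agent.S16.H607

/-- The index of `Γ₀(p)` in `SL(2,ℤ)` is at most `p + 1` for a prime `p`. -/
theorem index_Gamma0_prime_le (p : ℕ) [Fact p.Prime] :
    (CongruenceSubgroup.Gamma0 p).index ≤ p + 1 := by
  classical
  let f : SL(2, ℤ) ⧸ CongruenceSubgroup.Gamma0 p → Option (ZMod p) :=
    fun q => if ((q.out 1 0 : ℤ) : ZMod p) = 0 then none
      else some (((q.out 0 0 : ℤ) : ZMod p) * (((q.out 1 0 : ℤ) : ZMod p))⁻¹)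
  have hf : Function.Injective f := by
    intro x y hxy
    rw [← QuotientGroup.out_eq' x, ← QuotientGroup.out_eq' y]
    rw [QuotientGroup.eq]
    rw [CongruenceSubgroup.Gamma0_mem]
    simp only [f] at hxy
    set A := x.out with hA
    set B := y.out with hB
    have hAinv : (A⁻¹ * B) 1 0 = - A 1 0 * B 0 0 + A 0 0 * B 1 0 := by
      rw [Matrix.SpecialLinearGroup.coe_mul, Matrix.SpecialLinearGroup.coe_inv,
        Matrix.adjugate_fin_two, Matrix.mul_apply]
      simp [Fin.sum_univ_two]
    rw [hAinv]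
    push_cast
    by_cases hx : ((A 1 0 : ℤ) : ZMod p) = 0
    · by_cases hy : ((B 1 0 : ℤ) : ZMod p) = 0
      · rw [hx, hy]; ring
      · rw [if_pos hx, if_neg hy] at hxy
        exact absurd hxy (by simp)
    · by_cases hy : ((B 1 0 : ℤ) : ZMod p) = 0
      · rw [if_neg hx, if_pos hy] at hxy
        exact absurd hxy (by simp)
      · rw [if_neg hx, if_neg hy, Option.some.injEq] at hxy
        have h1 : ((A 0 0 : ℤ) : ZMod p) * ((B 1 0 : ℤ) : ZMod p)
            = ((B 0 0 : ℤ) : ZMod p) * ((A 1 0 : ℤ) : ZMod p) := by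
          calc ((A 0 0 : ℤ) : ZMod p) * ((B 1 0 : ℤ) : ZMod p)
              = ((A 0 0 : ℤ) : ZMod p) * (((A 1 0 : ℤ) : ZMod p))⁻¹
                  * (((A 1 0 : ℤ) : ZMod p) * ((B 1 0 : ℤ) : ZMod p)) := by
                field_simp
            _ = ((B 0 0 : ℤ) : ZMod p) * (((B 1 0 : ℤ) : ZMod p))⁻¹
                  * (((A 1 0 : ℤ) : ZMod p) * ((B 1 0 : ℤ) : ZMod p)) := by rw [hxy]
            _ = ((B 0 0 : ℤ) : ZMod p) * ((A 1 0 : ℤ) : ZMod p) := by
                field_simp
        linear_combination h1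
  have := Nat.card_le_card_of_injective f hf
  have hcard : Nat.card (Option (ZMod p)) = p + 1 := by
    rw [Nat.card_eq_fintype_card, Fintype.card_option, ZMod.card]
  rw [hcard] at this
  simpa [Subgroup.index] using this

/-- No nonzero cusp forms of weight `2` on `Γ₀(p)` for a prime `p ≤ 4`. -/
theorem cuspForm_eq_zero_of_prime_le (p : ℕ) [Fact p.Prime] [NeZero p] (hp : p ≤ 4)
    (f : CuspForm (CongruenceSubgroup.Gamma0 p) 2) : f = 0 := by
  have h1 : (1 : ℝ) ∈ (CongruenceSubgroup.Gamma0 p : Subgroup (GL (Fin 2) ℝ)).strictPeriods := by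
    simp [CongruenceSubgroup.strictPeriods_Gamma0]
  have h0 : (qExpansion 1 f).coeff 0 = 0 :=
    CuspFormClass.qExpansion_coeff_zero f one_pos h1
  have hidx := index_Gamma0_prime_le p
  have hg : CuspForm.toModularFormₗ f = 0 := by
    refine ModularForm.sturm_bound_Gamma0 p _ (fun n hn => ?_)
    have hn0 : n = 0 := by
      have : ((2 : ℤ) * ((CongruenceSubgroup.Gamma0 p).index : ℤ)).toNat / 12 = 0 := by
        omega
      omega
    subst hn0
    exact h0
  exact CuspForm.toModularFormₗ_injective (by simpa using hg)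

/-- The frozen S16 quotient is trivial whenever `S₂(Γ₀(p)) = 0`. -/
theorem card_quotient_eq_one_of_forall_eq_zero (p : ℕ) [Fact p.Prime]
    (h0 : ∀ f : CuspForm (CongruenceSubgroup.Gamma0 p) 2, f = 0) :
    Nat.card (↥(heckeLatticeAlgebra p ∅) ⧸
        Ideal.map ((latticeRestrictHom p ∅).toRingHom.comp (heckeEvalForms p 2))
          (eisensteinIdeal p)) = 1 := by
  have h1 : Subsingleton ↥(intLattice p 2) :=
    ⟨fun a b => Subtype.ext ((h0 a).trans (h0 b).symm)⟩
  have h2 : Subsingleton (Module.End ℤ ↥(intLattice p 2)) :=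
    ⟨fun a b => LinearMap.ext fun x => h1.elim _ _⟩
  have h3 : Subsingleton ↥(heckeLatticeAlgebra p ∅) :=
    ⟨fun a b => Subtype.ext (h2.elim _ _)⟩
  have h4 : Subsingleton (↥(heckeLatticeAlgebra p ∅) ⧸
        Ideal.map ((latticeRestrictHom p ∅).toRingHom.comp (heckeEvalForms p 2))
          (eisensteinIdeal p)) :=
    @Function.Surjective.subsingleton _ _ _ h3 Ideal.Quotient.mk_surjective
  exact Nat.card_eq_one_iff_unique.mpr ⟨h4, ⟨0⟩⟩

theorem eisensteinNumerator_two : eisensteinNumerator 2 = 1 := by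
  simp [eisensteinNumerator]

theorem eisensteinNumerator_three : eisensteinNumerator 3 = 1 := by
  simp [eisensteinNumerator]

/-- **S16 for `p ≤ 4`** (i.e. `p = 2` or `p = 3`), in the exact frozen shape. -/
theorem result_of_le_four (p : ℕ) [Fact p.Prime] (hp : p ≤ 4) :
    Nat.card (↥(heckeLatticeAlgebra p ∅) ⧸
        Ideal.map ((latticeRestrictHom p ∅).toRingHom.comp (heckeEvalForms p 2))
          (eisensteinIdeal p)) =
      eisensteinNumerator p := by
  rw [card_quotient_eq_one_of_forall_eq_zero p (cuspForm_eq_zero_of_prime_le p hp)]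
  have hp2 : 2 ≤ p := (Fact.out : p.Prime).two_le
  have hp4 : p ≠ 4 := fun h => by
    have := (Fact.out : p.Prime)
    rw [h] at this
    exact absurd this (by decide)
  have : p = 2 ∨ p = 3 := by omega
  rcases this with h | h
  · rw [h, eisensteinNumerator_two]
  · rw [h, eisensteinNumerator_three]

/-- WP ALG (small primes), in the exact shape of `Skel.result_small` of the S16 skeleton. -/
theorem result_small (p : ℕ) [Fact p.Prime] (hp : p < 5) :
    Nat.card (↥(CuspForm.heckeLatticeAlgebra p ∅) ⧸
        Ideal.map ((CuspForm.latticeRestrictHom p ∅).toRingHom.comp (CuspForm.heckeEvalForms p 2))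
          (ModularCurve.eisensteinIdeal p)) =
      ModularCurve.eisensteinNumerator p :=
  result_of_le_four p (by omega)

end Fermat.Agent.S16.H607
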